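/-
S26 helper (helper326), block PIC / DICT26, core 1: isomorphism criteria for modules which are
locally free of rank one, in sectionwise form.

* `exists_iso_of_locHoms` : compatible sectionwise isomorphisms on an open cover glue to an
  isomorphism of modules;
* `isIso_adj_of_isGenerating` : for `f : Y ⟶ X` and `ψ : L ⟶ f_* N` sending local generators of
  `L` to local generators of `N`, the adjoint morphism `f^* L ⟶ N` is an isomorphism.
-/
import Mathlib
import Fermat.Agent.S25.H326.RigGlue

set_option autoImplicit false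
set_option linter.unusedVariables false

universe u

noncomputable section

open CategoryTheory AlgebraicGeometry TopologicalSpace Opposite Limits

namespace Fermat.Agent.S26.H326

open Fermat.Agent.S25.H626 (res resO res_res res_smul res_add app_res hom_ext_apply resO_resO
  unitMod toUnit ofUnit IsLocalGenerator eq_of_locally_eq_M eq_of_locally_eq_O exists_gluing_O
  resO_mul resO_one)
open Fermat.Agent.S25.H326 (LocHom coverSet isDownBasis_coverSet pfVal pfVal_smul pfVal_res
  pfVal_ext pfTo pfOf coord coord_smul_gen coord_smul coord_add coord_res coord_gen coordHom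
  coord_eq_of_smul_eq app_resO mkHom resHom resHom_apply cut cut_le_left cut_le_right le_cut
  cut_mono onOpen toCut ofCut toCut_ofCut ofCut_toCut toCut_res ofCut_res toCut_smul ofCut_smul
  cutMap toCut_cutMap_app probe probeVal probe_val probeVal_gen cut_preimage_le unit_smul_eq
  res_res_cancel resO_resO_cancel)
open Fermat.Agent.S25

variable {X : Scheme.{u}}

/-! ### Gluing sectionwise morphisms on a cover -/

section GlueLocHom

variable {ι : Type u} (G : ι → X.Opens) {M N : X.Modules}

/-- The basis data of a compatible family of sectionwise morphisms. -/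
def locHomData (φ : ∀ i, LocHom (G i) M N)
    (hφ : ∀ (i j : ι) (W : X.Opens) (hi : W ≤ G i) (hj : W ≤ G j) (s : Γ(M, W)),
      (φ i).app W hi s = (φ j).app W hj s) :
    H926.BasisHomData (coverSet G) M N where
  a W hW := (φ hW.choose).app W hW.choose_spec
  nat W W' hW hW' h s := by
    show (φ hW'.choose).app W' hW'.choose_spec (res M h s) =
      res N h ((φ hW.choose).app W hW.choose_spec s)
    rw [hφ hW'.choose hW.choose W' hW'.choose_spec (h.trans hW.choose_spec),
      (φ hW.choose).app_res W W' hW.choose_spec h]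
  lin W hW r s := (φ hW.choose).app_smul W hW.choose_spec r s

/-- Compatible sectionwise morphisms on an open cover glue to a morphism. -/
theorem exists_hom_of_locHoms (hG : ⨆ i, G i = ⊤) (φ : ∀ i, LocHom (G i) M N)
    (hφ : ∀ (i j : ι) (W : X.Opens) (hi : W ≤ G i) (hj : W ≤ G j) (s : Γ(M, W)),
      (φ i).app W hi s = (φ j).app W hj s) :
    ∃ ψ : M ⟶ N, ∀ (i : ι) (W : X.Opens) (hi : W ≤ G i) (s : Γ(M, W)),
      ψ.app W s = (φ i).app W hi s := by
  have hB := isDownBasis_coverSet G hG
  refine ⟨(locHomData G φ hφ).glue hB, fun i W hi s => ?_⟩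
  have hW : W ∈ coverSet G := ⟨i, hi⟩
  rw [(locHomData G φ hφ).glue_app_of_mem hB W hW s]
  exact hφ hW.choose i W hW.choose_spec hi s

/-- Two morphisms agreeing on the sections over the members of the basis of a cover agree. -/
theorem hom_ext_of_cover (hG : ⨆ i, G i = ⊤) {ψ ψ' : M ⟶ N}
    (h : ∀ (i : ι) (W : X.Opens) (hi : W ≤ G i) (s : Γ(M, W)), ψ.app W s = ψ'.app W s) :
    ψ = ψ' :=
  H926.hom_ext_of_basis (isDownBasis_coverSet G hG) ψ ψ' (fun W hW s => h hW.choose W hW.choose_spec s)

/-- **Gluing isomorphisms.**  Compatible sectionwise isomorphisms on an open cover glue to an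
isomorphism of modules. -/
theorem exists_iso_of_locHoms (hG : ⨆ i, G i = ⊤) (φ : ∀ i, LocHom (G i) M N)
    (hb : ∀ i, (φ i).IsBij)
    (hφ : ∀ (i j : ι) (W : X.Opens) (hi : W ≤ G i) (hj : W ≤ G j) (s : Γ(M, W)),
      (φ i).app W hi s = (φ j).app W hj s) :
    ∃ ψ : M ≅ N, ∀ (i : ι) (W : X.Opens) (hi : W ≤ G i) (s : Γ(M, W)),
      ψ.hom.app W s = (φ i).app W hi s := by
  obtain ⟨ψ, hψ⟩ := exists_hom_of_locHoms G hG φ hφ
  have hφ' : ∀ (i j : ι) (W : X.Opens) (hi : W ≤ G i) (hj : W ≤ G j) (s : Γ(N, W)),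
      ((φ i).symm (hb i)).app W hi s = ((φ j).symm (hb j)).app W hj s := by
    intro i j W hi hj s
    apply (hb j W hj).1
    rw [LocHom.apply_symm_apply, ← hφ i j W hi hj, LocHom.apply_symm_apply]
  obtain ⟨ψ', hψ'⟩ := exists_hom_of_locHoms G hG (fun i => (φ i).symm (hb i)) hφ'
  refine ⟨⟨ψ, ψ', ?_, ?_⟩, hψ⟩
  · apply hom_ext_of_cover G hG
    intro i W hi s
    show ψ'.app W (ψ.app W s) = s
    rw [hψ i W hi, hψ' i W hi, LocHom.symm_apply_apply]
  · apply hom_ext_of_cover G hG
    intro i W hi s
    show ψ.app W (ψ'.app W s) = s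
    rw [hψ' i W hi, hψ i W hi, LocHom.apply_symm_apply]

end GlueLocHom

/-! ### Coordinates as a sectionwise isomorphism -/

section CoordLoc

variable {L : X.Modules} {W : X.Opens} {s : Γ(L, W)}

/-- The coordinate with respect to a local generator, as a sectionwise morphism to `𝒪_X`. -/
def coordLoc (hs : IsLocalGenerator L W s) : LocHom W L (unitMod X) where
  app W' h := AddMonoidHom.mk' (fun x => toUnit X W' (coord hs h x)) (fun x y => by
    rw [coord_add]
    rfl)
  app_smul W' h r x := by
    simp only [AddMonoidHom.mk'_apply]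
    rw [coord_smul]
    rfl
  app_res W' W'' h h' x := by
    simp only [AddMonoidHom.mk'_apply]
    rw [coord_res]
    rfl

theorem coordLoc_app (hs : IsLocalGenerator L W s) {W' : X.Opens} (h : W' ≤ W) (x : Γ(L, W')) :
    ofUnit X W' ((coordLoc hs).app W' h x) = coord hs h x := rfl

theorem isBij_coordLoc (hs : IsLocalGenerator L W s) : (coordLoc hs).IsBij := by
  intro W' h
  refine Function.bijective_iff_has_inverse.mpr
    ⟨fun a => ofUnit X W' a • res L h s, fun x => ?_, fun a => ?_⟩
  · exact coord_smul_gen hs h x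
  · show toUnit X W' (coord hs h (ofUnit X W' a • res L h s)) = a
    rw [coord_eq_of_smul_eq hs h _ _ rfl]
    rfl

/-- Multiplication with a section, as a sectionwise morphism from `𝒪_X`. -/
def smulLoc (P : X.Modules) {V : X.Opens} (e : Γ(P, V)) : LocHom V (unitMod X) P where
  app V' h := AddMonoidHom.mk' (fun r => ofUnit X V' r • res P h e) (fun r r' => by
    have : ofUnit X V' (r + r') = ofUnit X V' r + ofUnit X V' r' := rfl
    rw [this, add_smul])
  app_smul V' h a r := by
    simp only [AddMonoidHom.mk'_apply]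
    rw [unit_smul_eq, S25.H626.ofUnit_toUnit, mul_smul]
  app_res V' V'' h h' r := by
    simp only [AddMonoidHom.mk'_apply]
    rw [res_smul, res_res]
    rfl

theorem smulLoc_app (P : X.Modules) {V : X.Opens} (e : Γ(P, V)) {V' : X.Opens} (h : V' ≤ V)
    (r : Γ(unitMod X, V')) : (smulLoc P e).app V' h r = ofUnit X V' r • res P h e := rfl

/-- The restriction morphism `P ⟶ onOpen G P`. -/
def toOnOpen (G : X.Opens) (P : X.Modules) : P ⟶ onOpen G P :=
  mkHom (fun W => (ofCut G P W).comp (resHom P (cut_le_right G W)))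
    (fun W W' h s => by
      simp only [AddMonoidHom.comp_apply, resHom_apply]
      rw [res_res, ← ofCut_res, res_res])
    (fun W r s => by
      simp only [AddMonoidHom.comp_apply, resHom_apply]
      rw [res_smul, ofCut_smul])

theorem toCut_toOnOpen_app (G : X.Opens) (P : X.Modules) (W : X.Opens) (s : Γ(P, W)) :
    toCut G P W ((toOnOpen G P).app W s) = res P (cut_le_right G W) s := rfl

end CoordLoc

/-! ### The pull-back of a local generator is a local generator -/

section GenPull

variable {T' : Scheme.{u}} (f : T' ⟶ X)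

/-- The unit of the adjunction `f^* ⊣ f_*`. -/
def pbUnit (L : X.Modules) :
    L ⟶ (Scheme.Modules.pushforward f).obj ((Scheme.Modules.pullback f).obj L) :=
  (Scheme.Modules.pullbackPushforwardAdjunction f).homEquiv L
    ((Scheme.Modules.pullback f).obj L) (𝟙 _)

/-- The pull-back of a section of `L` to a section of `f^* L` (unit of the adjunction). -/
def pbSec (L : X.Modules) (W : X.Opens) (s : Γ(L, W)) :
    Γ((Scheme.Modules.pullback f).obj L, f ⁻¹ᵁ W) :=
  pfVal (N := (Scheme.Modules.pullback f).obj L) (pbUnit f L) W s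

theorem pbSec_smul (L : X.Modules) (W : X.Opens) (r : Γ(X, W)) (s : Γ(L, W)) :
    pbSec f L W (r • s) = f.app W r • pbSec f L W s :=
  pfVal_smul _ W r s

theorem pbSec_res (L : X.Modules) {W W' : X.Opens} (h : W' ≤ W) (s : Γ(L, W)) :
    pbSec f L W' (res L h s) =
      res ((Scheme.Modules.pullback f).obj L) (f.preimage_mono h) (pbSec f L W s) :=
  pfVal_res _ h s

/-- The value of a morphism `f^* L ⟶ N` on a pulled back section is the value of the adjoint
morphism `L ⟶ f_* N`. -/
theorem app_pbSec {L : X.Modules} {N : T'.Modules} (φ : (Scheme.Modules.pullback f).obj L ⟶ N)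
    (W : X.Opens) (s : Γ(L, W)) :
    φ.app (f ⁻¹ᵁ W) (pbSec f L W s) =
      pfVal ((Scheme.Modules.pullbackPushforwardAdjunction f).homEquiv L N φ) W s := by
  have h : (Scheme.Modules.pullbackPushforwardAdjunction f).homEquiv L N φ =
      pbUnit f L ≫ (Scheme.Modules.pushforward f).map φ := by
    unfold pbUnit
    rw [← Adjunction.homEquiv_naturality_right, Category.id_comp]
  rw [h]
  rfl

variable {L : X.Modules} {W : X.Opens} {s : Γ(L, W)}

/-- **Pull-back of local generators.**  If `s` is a local generator of `L` on `W`, then its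
pull-back is a local generator of `f^* L` on `f⁻¹ W`, for every morphism `f`. -/
theorem isLocalGenerator_pbSec (hs : IsLocalGenerator L W s) :
    IsLocalGenerator ((Scheme.Modules.pullback f).obj L) (f ⁻¹ᵁ W) (pbSec f L W s) := by
  -- the coordinate morphism
  obtain ⟨p, hp⟩ : ∃ p : (Scheme.Modules.pullback f).obj L ⟶ onOpen (f ⁻¹ᵁ W) (unitMod T'),
      (Scheme.Modules.pullbackPushforwardAdjunction f).homEquiv L _ p = probe f hs :=
    ⟨((Scheme.Modules.pullbackPushforwardAdjunction f).homEquiv L _).symm (probe f hs),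
      Equiv.apply_symm_apply _ _⟩
  have hpv : ∀ (W' : X.Opens) (s' : Γ(L, W')),
      ofUnit T' _ (toCut (f ⁻¹ᵁ W) (unitMod T') (f ⁻¹ᵁ W')
        (p.app (f ⁻¹ᵁ W') (pbSec f L W' s'))) = probeVal f hs W' s' := by
    intro W' s'
    rw [app_pbSec, hp]
    exact probe_val f hs W' s'
  -- generation
  have hAB : toOnOpen (f ⁻¹ᵁ W) ((Scheme.Modules.pullback f).obj L) =
      p ≫ cutMap (smulLoc ((Scheme.Modules.pullback f).obj L) (pbSec f L W s)) := by
    apply ((Scheme.Modules.pullbackPushforwardAdjunction f).homEquiv L _).injective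
    apply pfVal_ext
    intro W' s'
    rw [← app_pbSec, ← app_pbSec]
    have e2 : (p ≫ cutMap (smulLoc ((Scheme.Modules.pullback f).obj L)
        (pbSec f L W s))).app (f ⁻¹ᵁ W') (pbSec f L W' s') =
        (cutMap (smulLoc ((Scheme.Modules.pullback f).obj L) (pbSec f L W s))).app (f ⁻¹ᵁ W')
          (p.app (f ⁻¹ᵁ W') (pbSec f L W' s')) := rfl
    rw [e2]
    suffices key : toCut (f ⁻¹ᵁ W) ((Scheme.Modules.pullback f).obj L) (f ⁻¹ᵁ W')
        ((toOnOpen (f ⁻¹ᵁ W) ((Scheme.Modules.pullback f).obj L)).app (f ⁻¹ᵁ W')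
          (pbSec f L W' s')) =
        toCut (f ⁻¹ᵁ W) ((Scheme.Modules.pullback f).obj L) (f ⁻¹ᵁ W')
          ((cutMap (smulLoc ((Scheme.Modules.pullback f).obj L) (pbSec f L W s))).app (f ⁻¹ᵁ W')
            (p.app (f ⁻¹ᵁ W') (pbSec f L W' s'))) from key
    rw [toCut_toOnOpen_app, toCut_cutMap_app, smulLoc_app, hpv W' s']
    unfold probeVal
    have h1 := coord_smul_gen hs (inf_le_right : W' ⊓ W ≤ W)
      (res L (inf_le_left : W' ⊓ W ≤ W') s')
    have h2 := congrArg (pbSec f L (W' ⊓ W)) h1
    rw [pbSec_smul, pbSec_res, pbSec_res] at h2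
    have h3 := congrArg (res ((Scheme.Modules.pullback f).obj L) (cut_preimage_le f W W')) h2
    rw [res_smul, res_res, res_res] at h3
    exact h3.symm
  intro V' hV'
  have hle : V' ≤ cut (f ⁻¹ᵁ W) V' := le_cut hV' le_rfl
  -- the value of `p` on the generator
  have hgen : resO hle (ofUnit T' _ (toCut (f ⁻¹ᵁ W) (unitMod T') V'
      (p.app V' (res ((Scheme.Modules.pullback f).obj L) hV' (pbSec f L W s))))) = 1 := by
    rw [app_res, toCut_res]
    have h1 : ofUnit T' _ (res (unitMod T') (cut_mono (le_refl (f ⁻¹ᵁ W)) hV')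
        (toCut (f ⁻¹ᵁ W) (unitMod T') (f ⁻¹ᵁ W) (p.app (f ⁻¹ᵁ W) (pbSec f L W s)))) =
        resO (cut_mono (le_refl (f ⁻¹ᵁ W)) hV') (ofUnit T' _
          (toCut (f ⁻¹ᵁ W) (unitMod T') (f ⁻¹ᵁ W) (p.app (f ⁻¹ᵁ W) (pbSec f L W s)))) := rfl
    rw [h1, hpv W s, probeVal_gen, resO_one, resO_one]
  -- the value of `p` on a multiple
  have hsmul : ∀ (r : Γ(T', V')) (m : Γ((Scheme.Modules.pullback f).obj L, V')),
      resO hle (ofUnit T' _ (toCut (f ⁻¹ᵁ W) (unitMod T') V' (p.app V' (r • m)))) =
        r * resO hle (ofUnit T' _ (toCut (f ⁻¹ᵁ W) (unitMod T') V' (p.app V' m))) := by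
    intro r m
    rw [Scheme.Modules.Hom.app_smul, toCut_smul, unit_smul_eq, S25.H626.ofUnit_toUnit, resO_mul,
      resO_resO_cancel]
  constructor
  · intro r r' hrr'
    simp only at hrr'
    have h1 := congrArg (fun m => resO hle (ofUnit T' _ (toCut (f ⁻¹ᵁ W) (unitMod T') V'
      (p.app V' m)))) hrr'
    simp only at h1
    rw [hsmul, hsmul, hgen, mul_one, mul_one] at h1
    exact h1
  · intro m
    refine ⟨resO hle (ofUnit T' _ (toCut (f ⁻¹ᵁ W) (unitMod T') V' (p.app V' m))), ?_⟩
    simp only
    have h1 : toCut (f ⁻¹ᵁ W) ((Scheme.Modules.pullback f).obj L) V'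
        ((toOnOpen (f ⁻¹ᵁ W) ((Scheme.Modules.pullback f).obj L)).app V' m) =
        toCut (f ⁻¹ᵁ W) ((Scheme.Modules.pullback f).obj L) V'
          ((cutMap (smulLoc ((Scheme.Modules.pullback f).obj L) (pbSec f L W s))).app V'
            (p.app V' m)) := by
      rw [hAB]
      rfl
    rw [toCut_toOnOpen_app, toCut_cutMap_app, smulLoc_app] at h1
    have h2 := congrArg (res ((Scheme.Modules.pullback f).obj L) hle) h1
    rw [res_res_cancel, res_smul, res_res] at h2
    exact h2.symm

end GenPull

end Fermat.Agent.S26.H326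

end
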