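/-
S26 helper (helper326), block PIC / DICT26, core 2: invertible modules realizing a Čech cocycle
(model `Fermat.Agent.S26.Pic.Cocycle`, indexed by points).

* `Realizes c L` : `L` has local generators `t x ∈ Γ(L, c.U x)` with `t x = c.g x y • t y` on
  `c.U x ⊓ c.U y`;
* `exists_realizes` : every cocycle is realized by an invertible module (gluing);
* `realizes_iso_unit_iff` : `L ≅ 𝒪_X` iff the cocycle is a coboundary after shrinking;
* `realizes_pullback` : `f^* L` realizes the pulled back cocycle.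
-/
import Mathlib
import Fermat.Agent.S26.H326.DictCore
import Fermat.Agent.S25.H326.Transport
import Fermat.Agent.S26.Pic.Defs

set_option autoImplicit false
set_option linter.unusedVariables false

universe u

noncomputable section

open CategoryTheory AlgebraicGeometry TopologicalSpace Opposite Limits

namespace Fermat.Agent.S26.H326

open Fermat.Agent.S25.H626 (res resO res_res res_smul res_add app_res hom_ext_apply resO_resO
  unitMod toUnit ofUnit IsLocalGenerator resO_mul resO_one res_id resO_id smul_toUnit_one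
  res_toUnit_one)
open Fermat.Agent.S25.H326 (LocHom GlueData exists_glue coord coord_smul_gen coord_smul coord_add
  coord_res coord_gen coord_eq_of_smul_eq unit_smul_eq restrictHomOfLocHom
  isIso_restrictHomOfLocHom)
open Fermat.Agent.S25

variable {X Y : Scheme.{u}}

/-! ### Units and their underlying sections -/

theorem coe_picRes {U V : X.Opens} (h : V ≤ U) (a : Γ(X, U)ˣ) :
    ((Pic.res h a : Γ(X, V)ˣ) : Γ(X, V)) = resO h (a : Γ(X, U)) := rfl

theorem coe_picPull (f : Y ⟶ X) {U : X.Opens} {V : Y.Opens} (e : V ≤ f ⁻¹ᵁ U) (a : Γ(X, U)ˣ) :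
    ((Pic.pull f e a : Γ(Y, V)ˣ) : Γ(Y, V)) = resO e (f.app U (a : Γ(X, U))) := rfl

/-- `1` is a local generator of `𝒪_X` on every open. -/
theorem isLocalGenerator_one (U : X.Opens) : IsLocalGenerator (unitMod X) U (toUnit X U 1) := by
  intro V h
  have e : (fun r : Γ(X, V) => r • res (unitMod X) h (toUnit X U 1)) = toUnit X V := by
    funext r
    rw [res_toUnit_one, smul_toUnit_one]
  rw [e]
  exact S25.H626.toUnit_bijective X V

/-- A local generator of `𝒪_X` on `U` is a unit. -/
theorem isUnit_of_isLocalGenerator_unit {U : X.Opens} {a : Γ(unitMod X, U)}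
    (ha : IsLocalGenerator (unitMod X) U a) : IsUnit (ofUnit X U a) := by
  obtain ⟨r, hr⟩ := (ha U le_rfl).2 (toUnit X U 1)
  simp only [res_id] at hr
  have h1 : r * ofUnit X U a = 1 := congrArg (ofUnit X U) hr
  exact IsUnit.of_mul_eq_one _ (by rw [mul_comm]; exact h1)

/-! ### Modules realizing a cocycle -/

/-- The module `L` realizes the cocycle `c`: it has local generators `t x` over `c.U x` with
`t x = c.g x y • t y` over `c.U x ⊓ c.U y`. -/
def Realizes (c : Pic.Cocycle X) (L : X.Modules) : Prop :=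
  ∃ t : ∀ x, Γ(L, c.U x), (∀ x, IsLocalGenerator L (c.U x) (t x)) ∧
    ∀ x y, res L (inf_le_left : c.U x ⊓ c.U y ≤ c.U x) (t x) =
      ((c.g x y : Γ(X, c.U x ⊓ c.U y)ˣ) : Γ(X, c.U x ⊓ c.U y)) •
        res L (inf_le_right : c.U x ⊓ c.U y ≤ c.U y) (t y)

/-- The relation between the generators, over any open of the overlap. -/
theorem Realizes.rel_on {c : Pic.Cocycle X} {L : X.Modules} {t : ∀ x, Γ(L, c.U x)}
    (hrel : ∀ x y, res L (inf_le_left : c.U x ⊓ c.U y ≤ c.U x) (t x) =
      ((c.g x y : Γ(X, c.U x ⊓ c.U y)ˣ) : Γ(X, c.U x ⊓ c.U y)) •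
        res L (inf_le_right : c.U x ⊓ c.U y ≤ c.U y) (t y))
    (x y : X) {W : X.Opens} (hx : W ≤ c.U x) (hy : W ≤ c.U y) :
    res L hx (t x) =
      resO (le_inf hx hy) ((c.g x y : Γ(X, c.U x ⊓ c.U y)ˣ) : Γ(X, c.U x ⊓ c.U y)) •
        res L hy (t y) := by
  have := congrArg (res L (le_inf hx hy)) (hrel x y)
  rwa [res_smul, res_res, res_res] at this

/-! ### Existence: gluing -/

/-- Sectionwise trivialisations with transition functions `c.g` give an invertible module
realizing `c`. -/
theorem realizes_of_locHoms (c : Pic.Cocycle X) (M : X.Modules)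
    (e : ∀ x, LocHom (c.U x) M (unitMod X)) (hbij : ∀ x, (e x).IsBij)
    (hcompat : ∀ (x y : X) (W : X.Opens) (hW : W ≤ c.U x ⊓ c.U y) (s : Γ(M, W)),
      resO hW ((c.g x y : Γ(X, c.U x ⊓ c.U y)ˣ) : Γ(X, c.U x ⊓ c.U y)) •
          (e x).app W (hW.trans inf_le_left) s =
        (e y).app W (hW.trans inf_le_right) s) :
    Scheme.Modules.IsInvertible M ∧ Realizes c M := by
  refine ⟨⟨fun x => ⟨c.U x, c.mem x, ?_⟩⟩, ?_⟩
  · have hf : (c.U x).ι.opensRange ≤ c.U x := le_of_eq (Scheme.Opens.opensRange_ι _)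
    have := isIso_restrictHomOfLocHom (c.U x).ι hf (e x) (hbij x)
    exact ⟨((Scheme.Modules.restrictFunctorIsoPullback (c.U x).ι).app M).symm ≪≫
      asIso (restrictHomOfLocHom (c.U x).ι hf (e x)) ≪≫
      Scheme.Modules.restrictUnitIso (c.U x).ι⟩
  · have ht : ∀ x, (e x).app (c.U x) le_rfl
        (((e x).symm (hbij x)).app (c.U x) le_rfl (toUnit X _ 1)) = toUnit X _ 1 :=
      fun x => LocHom.apply_symm_apply (e x) (hbij x) (c.U x) le_rfl _
    refine ⟨fun x => ((e x).symm (hbij x)).app (c.U x) le_rfl (toUnit X _ 1), fun x => ?_,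
      fun x y => ?_⟩
    · exact LocHom.isLocalGenerator_app (LocHom.isBij_symm (e x) (hbij x)) le_rfl
        (isLocalGenerator_one (c.U x))
    · apply (hbij y (c.U x ⊓ c.U y) inf_le_right).1
      rw [(e y).app_smul, (e y).app_res (c.U y) (c.U x ⊓ c.U y) le_rfl inf_le_right, ht y,
        ← hcompat x y (c.U x ⊓ c.U y) le_rfl,
        (e x).app_res (c.U x) (c.U x ⊓ c.U y) le_rfl inf_le_left, ht x, resO_id, res_toUnit_one,
        res_toUnit_one]

/-- The gluing data of a cocycle. -/
def cocycleGlueData (c : Pic.Cocycle X) : GlueData X X where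
  G := c.U
  P := fun _ => unitMod X
  τ := fun x y =>
    LocHom.smul ((c.g x y : Γ(X, c.U x ⊓ c.U y)ˣ) : Γ(X, c.U x ⊓ c.U y)) (LocHom.id _ _)
  τ_self := fun x W hW s => by
    rw [LocHom.smul_app]
    have h := congrArg Units.val (c.g_self_on hW)
    rw [coe_picRes, Units.val_one] at h
    rw [h, one_smul]
    rfl
  τ_cocycle := fun i j k W hij hjk hik s => by
    rw [LocHom.smul_app, LocHom.smul_app, LocHom.smul_app]
    have h := congrArg Units.val (c.cocycle_on hij hjk hik)
    rw [Units.val_mul, coe_picRes, coe_picRes, coe_picRes] at h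
    rw [← h, mul_comm, mul_smul]
    rfl

/-- **DICT26, existence.**  Every cocycle is realized by an invertible module. -/
theorem exists_realizes (c : Pic.Cocycle X) :
    ∃ L : X.Modules, Scheme.Modules.IsInvertible L ∧ Realizes c L := by
  have key : ∃ (M : X.Modules) (e : ∀ x, LocHom (c.U x) M (unitMod X)),
      (∀ x, (e x).IsBij) ∧
      ∀ (x y : X) (W : X.Opens) (hW : W ≤ c.U x ⊓ c.U y) (s : Γ(M, W)),
        (LocHom.smul ((c.g x y : Γ(X, c.U x ⊓ c.U y)ˣ) : Γ(X, c.U x ⊓ c.U y))
            (LocHom.id _ (unitMod X))).app W hW ((e x).app W (hW.trans inf_le_left) s) =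
          (e y).app W (hW.trans inf_le_right) s :=
    exists_glue (cocycleGlueData c)
  obtain ⟨M, e, hbij, hcompat⟩ := key
  refine ⟨M, realizes_of_locHoms c M e hbij ?_⟩
  intro x y W hW s
  rw [← hcompat x y W hW s, LocHom.smul_app]
  rfl

/-! ### Pull-back -/

/-- **DICT26, pull-back.**  If `L` realizes `c`, then `f^* L` realizes the pulled back
cocycle. -/
theorem realizes_pullback (f : Y ⟶ X) {c : Pic.Cocycle X} {L : X.Modules} (h : Realizes c L) :
    Realizes (c.pullback f) ((Scheme.Modules.pullback f).obj L) := by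
  obtain ⟨t, ht, hrel⟩ := h
  refine ⟨fun y => pbSec f L (c.U (f y)) (t (f y)), fun y => isLocalGenerator_pbSec f (ht (f y)),
    fun y y' => ?_⟩
  have h1 := congrArg (pbSec f L (c.U (f y) ⊓ c.U (f y'))) (hrel (f y) (f y'))
  rw [pbSec_smul, pbSec_res, pbSec_res] at h1
  have h2 := congrArg (res ((Scheme.Modules.pullback f).obj L)
    (Pic.inf_preimage_le f (c.U (f y)) (c.U (f y')))) h1
  rw [res_smul, res_res, res_res] at h2
  exact h2

/-! ### Triviality -/

/-- **DICT26, triviality.**  A module realizing `c` is trivial iff `c` is a coboundary after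
shrinking the opens. -/
theorem realizes_iso_unit_iff {c : Pic.Cocycle X} {L : X.Modules} (h : Realizes c L) :
    Nonempty (L ≅ unitMod X) ↔
      ∃ (V : X → X.Opens) (_ : ∀ x, x ∈ V x) (hc : ∀ x, V x ≤ c.U x)
        (h : ∀ x, Γ(X, V x)ˣ), ∀ x y,
          Pic.res (inf_le_inf (hc x) (hc y)) (c.g x y) *
              Pic.res (inf_le_right : V x ⊓ V y ≤ V y) (h y) =
            Pic.res (inf_le_left : V x ⊓ V y ≤ V x) (h x) := by
  obtain ⟨t, ht, hrel⟩ := h
  constructor
  · rintro ⟨e⟩
    -- the values of the trivialisation on the generators are units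
    have hu : ∀ x, IsUnit (ofUnit X (c.U x) (e.hom.app (c.U x) (t x))) := by
      intro x
      apply isUnit_of_isLocalGenerator_unit
      have hb : (LocHom.ofHom (c.U x) e.hom).IsBij := by
        intro W hW
        refine Function.bijective_iff_has_inverse.mpr ⟨fun s => e.inv.app W s, fun s => ?_,
          fun s => ?_⟩
        · exact S25.H626.app_inv_hom_apply e W s
        · exact S25.H626.app_hom_inv_apply e W s
      exact LocHom.isLocalGenerator_app hb le_rfl (ht x)
    refine ⟨c.U, c.mem, fun _ => le_rfl, fun x => (hu x).unit, fun x y => ?_⟩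
    apply Units.ext
    rw [Units.val_mul, coe_picRes, coe_picRes, coe_picRes, IsUnit.unit_spec, IsUnit.unit_spec]
    have h1 := congrArg (fun s => ofUnit X _ (e.hom.app (c.U x ⊓ c.U y) s)) (hrel x y)
    beta_reduce at h1
    rw [Scheme.Modules.Hom.app_smul, app_res, app_res, unit_smul_eq,
      S25.H626.ofUnit_toUnit] at h1
    rw [resO_id]
    exact h1.symm
  · rintro ⟨V, hV, hc, u, H⟩
    have hcover : ⨆ x, V x = ⊤ := by
      rw [eq_top_iff]
      intro x _
      exact Opens.mem_iSup.mpr ⟨x, hV x⟩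
    have hH : ∀ (x y : X) (W : X.Opens) (hx : W ≤ V x) (hy : W ≤ V y),
        resO (le_inf (hx.trans (hc x)) (hy.trans (hc y)))
            ((c.g x y : Γ(X, c.U x ⊓ c.U y)ˣ) : Γ(X, c.U x ⊓ c.U y)) *
          resO hy ((u y : Γ(X, V y)ˣ) : Γ(X, V y)) = resO hx ((u x : Γ(X, V x)ˣ) : Γ(X, V x)) := by
      intro x y W hx hy
      have h1 := congrArg (fun a => resO (le_inf hx hy) (Units.val a)) (H x y)
      beta_reduce at h1
      rw [Units.val_mul, coe_picRes, coe_picRes, coe_picRes, resO_mul, resO_resO, resO_resO,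
        resO_resO] at h1
      exact h1
    obtain ⟨ψ, -⟩ := exists_iso_of_locHoms V hcover
      (fun x => LocHom.smul ((u x : Γ(X, V x)ˣ) : Γ(X, V x)) ((coordLoc (ht x)).restrict (hc x)))
      (fun x => LocHom.isBij_smul ((isBij_coordLoc (ht x)).restrict (hc x)) (u x).isUnit)
      (by
        intro x y W hx hy s
        rw [LocHom.smul_app, LocHom.smul_app]
        show resO hx _ • toUnit X W (coord (ht x) (hx.trans (hc x)) s) =
          resO hy _ • toUnit X W (coord (ht y) (hy.trans (hc y)) s)
        have h1 : coord (ht y) (hy.trans (hc y)) s =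
            coord (ht x) (hx.trans (hc x)) s *
              resO (le_inf (hx.trans (hc x)) (hy.trans (hc y)))
                ((c.g x y : Γ(X, c.U x ⊓ c.U y)ˣ) : Γ(X, c.U x ⊓ c.U y)) := by
          apply coord_eq_of_smul_eq
          rw [mul_smul, ← Realizes.rel_on hrel x y (hx.trans (hc x)) (hy.trans (hc y)),
            coord_smul_gen]
        rw [h1, ← hH x y W hx hy, unit_smul_eq, unit_smul_eq, S25.H626.ofUnit_toUnit,
          S25.H626.ofUnit_toUnit]
        congr 1
        ring)
    exact ⟨ψ⟩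

end Fermat.Agent.S26.H326

end
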