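/-
S26 helper (helper326), block PIC / DICT26 (subtasks 598/599): the dictionary between the
classes of the Čech Picard theory `Pic.cechPic` and invertible sheaves of modules, in the form
`H687.ModDict` consumed by C1 (`H687.curveCube`).
-/
import Fermat.Agent.S26.H326.DictRealize
import Fermat.Agent.S26.Pic.Theory
import Fermat.Agent.S26.H687.CurveCube

set_option autoImplicit false

universe u

noncomputable section

open CategoryTheory AlgebraicGeometry

namespace Fermat.Agent.S26.H326

/-- **DICT26.**  The dictionary between Čech classes and invertible modules: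
`Rep a L` iff `L` realizes some cocycle of class `a`. -/
def modDict : H687.ModDict Pic.cechPic.{u} where
  Rep {X} a L := ∃ c : Pic.Cocycle X, Pic.cl c = a ∧ Realizes c L
  exists_rep a := by
    obtain ⟨c, rfl⟩ := Pic.cl_surjective a
    obtain ⟨L, hL, hr⟩ := exists_realizes c
    exact ⟨L, hL, c, rfl, hr⟩
  rep_zero_iff a L := by
    rintro ⟨c, rfl, hr⟩
    rw [Pic.cl_eq_zero_iff]
    exact (realizes_iso_unit_iff hr).symm
  rep_pullback f a L := by
    rintro ⟨c, rfl, hr⟩
    exact ⟨c.pullback f, (Pic.map_cl f c).symm, realizes_pullback f hr⟩

/-- **C1, the cube for a curve**, for the Čech Picard theory, from the existence of Jacobians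
(row S25). -/
theorem curveCube_cechPic (hS25 : H687.S25Statement.{u}) (K : Type u) [Field K]
    [IsAlgClosed K] : Stmt.CurveCube Pic.cechPic.{u} K :=
  H687.curveCube hS25 Pic.cechPic modDict K

end Fermat.Agent.S26.H326

end
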